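import Fermat.Agent.Lib.Newform.H863.GoodEigen
import Fermat.Agent.Lib.Newform.H683.Eigen

/-!
# Row HARD, leaf (ST): eigenvectors with a prescribed `U_q`-eigenvalue   (helper53)

`exists_normalizedEigenform_of_eigenvector_Uq` : a nonzero cusp form `h` of level `M` which is an
eigenvector of the `T_ℓ` (`ℓ ∤ M`, `ℓ ∉ S`) with eigenvalues `lam ℓ` AND of `U_q` (`q ∣ M`) with
eigenvalue `a` gives a NORMALIZED eigenform `g` of level `M` (Prelude sense: eigen for all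
`T_ℓ`, `U_r`) with `a_ℓ(g) = lam ℓ` for those `ℓ` and `a_q(g) = a`.

(The library lemma `Lib.Newform.H863.exists_normalizedEigenform_of_eigenvector` does not control
the `U_q`-eigenvalue.)  This is the adapter from the Betti side of Ihara avoidance, where
`U_q² = 1` is known on the module, to `H53.stUq` (which wants a normalized eigenform with
`a_q² = 1`).
-/

set_option autoImplicit false

open CuspForm CongruenceSubgroup ModularFormClass

namespace Fermat.Agent.S38.H53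

open Fermat.Agent.Lib.Newform

/-- The common eigenspace of the good Hecke operators and of `U_q`. -/
def uqEigenspace (M : ℕ) [NeZero M] (S : Set ℕ) (lam : ℕ → ℂ) {q : ℕ} (hqM : q ∣ M) (a : ℂ) :
    Submodule ℂ (CuspForm (Gamma0 M) 2) where
  carrier := {h | (∀ (ℓ : ℕ) (hℓ : ℓ.Prime) (hℓM : ¬ ℓ ∣ M), ℓ ∉ S →
    CuspForm.heckeTLin 2 hℓ hℓM h = lam ℓ • h) ∧ CuspForm.heckeULin 2 hqM h = a • h}
  add_mem' := by
    rintro x y ⟨hx, hx'⟩ ⟨hy, hy'⟩
    refine ⟨fun ℓ hℓ hℓM hS => ?_, ?_⟩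
    · rw [map_add, hx ℓ hℓ hℓM hS, hy ℓ hℓ hℓM hS, smul_add]
    · rw [map_add, hx', hy', smul_add]
  zero_mem' := by
    refine ⟨fun ℓ hℓ hℓM hS => ?_, ?_⟩
    · simp
    · simp
  smul_mem' := by
    rintro c x ⟨hx, hx'⟩
    refine ⟨fun ℓ hℓ hℓM hS => ?_, ?_⟩
    · rw [map_smul, hx ℓ hℓ hℓM hS, smul_comm]
    · rw [map_smul, hx', smul_comm]

/-- Every element of the full Hecke algebra preserves `uqEigenspace`. -/
theorem heckeAlgebra_mapsTo_uqEigenspace {M : ℕ} [NeZero M] (S : Set ℕ) (lam : ℕ → ℂ) {q : ℕ}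
    (hq : q.Prime) (hqM : q ∣ M) (a : ℂ)
    (t : heckeAlgebra M 2 (∅ : Set ℕ)) (w : CuspForm (Gamma0 M) 2)
    (hw : w ∈ uqEigenspace M S lam hqM a) :
    (t : Module.End ℂ (CuspForm (Gamma0 M) 2)) w ∈ uqEigenspace M S lam hqM a := by
  obtain ⟨hw1, hw2⟩ := hw
  refine ⟨fun ℓ hℓ hℓM hS => ?_, ?_⟩
  · have hcomm : (heckeAlgebra.T hℓ hℓM (Set.notMem_empty _) : heckeAlgebra M 2 (∅ : Set ℕ)) * t
        = t * heckeAlgebra.T hℓ hℓM (Set.notMem_empty _) := mul_comm _ _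
    have h1 := congrArg (fun x : heckeAlgebra M 2 (∅ : Set ℕ) =>
      (x : Module.End ℂ (CuspForm (Gamma0 M) 2)) w) hcomm
    simp only [MulMemClass.coe_mul, heckeAlgebra.coe_T, Module.End.mul_apply] at h1
    rw [h1, hw1 ℓ hℓ hℓM hS, map_smul]
  · have hcomm : (heckeAlgebra.U hq hqM (Set.notMem_empty _) : heckeAlgebra M 2 (∅ : Set ℕ)) * t
        = t * heckeAlgebra.U hq hqM (Set.notMem_empty _) := mul_comm _ _
    have h1 := congrArg (fun x : heckeAlgebra M 2 (∅ : Set ℕ) =>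
      (x : Module.End ℂ (CuspForm (Gamma0 M) 2)) w) hcomm
    simp only [MulMemClass.coe_mul, heckeAlgebra.coe_U, Module.End.mul_apply] at h1
    rw [h1, hw2, map_smul]

/-- The action of the full Hecke algebra on `uqEigenspace`. -/
noncomputable def heckeOnUq (M : ℕ) [NeZero M] (S : Set ℕ) (lam : ℕ → ℂ) {q : ℕ}
    (hq : q.Prime) (hqM : q ∣ M) (a : ℂ) :
    heckeAlgebra M 2 (∅ : Set ℕ) →+* Module.End ℂ (uqEigenspace M S lam hqM a) where
  toFun t := (t : Module.End ℂ (CuspForm (Gamma0 M) 2)).restrict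
    (fun w hw => heckeAlgebra_mapsTo_uqEigenspace S lam hq hqM a t w hw)
  map_one' := by
    ext w
    simp
  map_mul' x y := by
    ext w
    simp [Module.End.mul_apply]
  map_zero' := by
    ext w
    simp
  map_add' x y := by
    ext w
    simp

theorem heckeOnUq_apply_coe {M : ℕ} [NeZero M] (S : Set ℕ) (lam : ℕ → ℂ) {q : ℕ}
    (hq : q.Prime) (hqM : q ∣ M) (a : ℂ)
    (t : heckeAlgebra M 2 (∅ : Set ℕ)) (w : uqEigenspace M S lam hqM a) :
    ((heckeOnUq M S lam hq hqM a t w : uqEigenspace M S lam hqM a) : CuspForm (Gamma0 M) 2)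
      = (t : Module.End ℂ (CuspForm (Gamma0 M) 2)) (w : CuspForm (Gamma0 M) 2) := rfl

/-- **Eigenvector ⟹ normalized eigenform, with the `U_q`-eigenvalue.** -/
theorem exists_normalizedEigenform_of_eigenvector_Uq {M : ℕ} [NeZero M] (S : Set ℕ)
    (lam : ℕ → ℂ) {q : ℕ} (hq : q.Prime) (hqM : q ∣ M) (a : ℂ)
    (h : CuspForm (Gamma0 M) 2) (hh : h ≠ 0)
    (heig : ∀ (ℓ : ℕ) (hℓ : ℓ.Prime) (hℓM : ¬ ℓ ∣ M), ℓ ∉ S →
      CuspForm.heckeTLin 2 hℓ hℓM h = lam ℓ • h)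
    (hU : CuspForm.heckeULin 2 hqM h = a • h) :
    ∃ g : CuspForm (Gamma0 M) 2, g.IsNormalizedEigenform ∧
      (∀ ℓ : ℕ, ℓ.Prime → ¬ ℓ ∣ M → ℓ ∉ S → qCoeff g ℓ = lam ℓ) ∧ qCoeff g q = a := by
  classical
  have := H863.finiteDimensional_cuspForm M
  set W := uqEigenspace M S lam hqM a with hW
  have hhW : h ∈ W := ⟨heig, hU⟩
  have : Nontrivial W := ⟨⟨⟨h, hhW⟩, 0, fun h0 => hh (congrArg Subtype.val h0)⟩⟩
  set ρ := heckeOnUq M S lam hq hqM a with hρ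
  have hker : RingHom.ker ρ ≠ ⊤ := by
    intro htop
    have h1 : (1 : heckeAlgebra M 2 (∅ : Set ℕ)) ∈ RingHom.ker ρ := htop ▸ Submodule.mem_top
    rw [RingHom.mem_ker, map_one] at h1
    have h2 := congrArg (fun e : Module.End ℂ W => e ⟨h, hhW⟩) h1
    simp only [Module.End.one_apply, LinearMap.zero_apply] at h2
    exact hh (congrArg Subtype.val h2)
  obtain ⟨𝔫, h𝔫max, h𝔫le⟩ := Ideal.exists_le_maximal _ hker
  have : 𝔫.IsPrime := h𝔫max.isPrime
  obtain ⟨g, χ, hg0, hgχ, -⟩ := Fermat.Agent.S49.exists_eigenvector_ker_le' ρ 𝔫 h𝔫le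
  have hg0' : (g : CuspForm (Gamma0 M) 2) ≠ 0 := fun h0 => hg0 (Subtype.ext h0)
  have hgχ' : ∀ t : heckeAlgebra M 2 (∅ : Set ℕ),
      (t : Module.End ℂ (CuspForm (Gamma0 M) 2)) (g : CuspForm (Gamma0 M) 2)
        = χ t • (g : CuspForm (Gamma0 M) 2) := by
    intro t
    have := congrArg Subtype.val (hgχ t)
    simpa [hρ, heckeOnUq_apply_coe] using this
  -- `g` is an eigenvector of all `T_p`, `U_p` (function level)
  have hT : ∀ p : ℕ, p.Prime → ¬ p ∣ M →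
      ∃ c : ℂ, ModularForm.heckeT 2 p ⇑(g : CuspForm (Gamma0 M) 2)
        = c • ⇑(g : CuspForm (Gamma0 M) 2) := by
    intro p hp hpM
    refine ⟨χ (heckeAlgebra.T hp hpM (Set.notMem_empty _)), ?_⟩
    have h1 := hgχ' (heckeAlgebra.T hp hpM (Set.notMem_empty _))
    rw [heckeAlgebra.coe_T] at h1
    have h2 := congrArg (fun F : CuspForm (Gamma0 M) 2 => (⇑F : UpperHalfPlane → ℂ)) h1
    simpa using h2
  have hUall : ∀ p : ℕ, p.Prime → p ∣ M →
      ∃ c : ℂ, ModularForm.heckeU 2 p ⇑(g : CuspForm (Gamma0 M) 2)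
        = c • ⇑(g : CuspForm (Gamma0 M) 2) := by
    intro p hp hpM
    refine ⟨χ (heckeAlgebra.U hp hpM (Set.notMem_empty _)), ?_⟩
    have h1 := hgχ' (heckeAlgebra.U hp hpM (Set.notMem_empty _))
    rw [heckeAlgebra.coe_U] at h1
    have h2 := congrArg (fun F : CuspForm (Gamma0 M) 2 => (⇑F : UpperHalfPlane → ℂ)) h1
    simpa using h2
  -- normalise
  have ha1 : qCoeff ⇑(g : CuspForm (Gamma0 M) 2) 1 ≠ 0 := fun h1 =>
    hg0' (H683.eq_zero_of_eigen_of_coeff_one_eq_zero _ hT hUall h1)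
  set c : ℂ := (qCoeff ⇑(g : CuspForm (Gamma0 M) 2) 1)⁻¹ with hc
  set f : CuspForm (Gamma0 M) 2 := c • (g : CuspForm (Gamma0 M) 2) with hf
  have hfW : f ∈ W := W.smul_mem c g.2
  have hf1 : qCoeff ⇑f 1 = 1 := by
    rw [hf, H683.qCoeff_smul_cusp, hc]
    exact inv_mul_cancel₀ ha1
  have hfT : ∀ p : ℕ, p.Prime → ¬ p ∣ M →
      ∃ c' : ℂ, ModularForm.heckeT 2 p ⇑f = c' • ⇑f := by
    intro p hp hpM
    obtain ⟨c', hc'⟩ := hT p hp hpM
    refine ⟨c', ?_⟩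
    have h1 : (⇑f : UpperHalfPlane → ℂ) = c • ⇑(g : CuspForm (Gamma0 M) 2) := by
      rw [hf]; rfl
    rw [h1, ModularForm.heckeT_smul, hc', smul_comm]
  have hfU : ∀ p : ℕ, p.Prime → p ∣ M →
      ∃ c' : ℂ, ModularForm.heckeU 2 p ⇑f = c' • ⇑f := by
    intro p hp hpM
    obtain ⟨c', hc'⟩ := hUall p hp hpM
    refine ⟨c', ?_⟩
    have h1 : (⇑f : UpperHalfPlane → ℂ) = c • ⇑(g : CuspForm (Gamma0 M) 2) := by
      rw [hf]; rfl
    rw [h1, ModularForm.heckeU_smul, hc', smul_comm]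
  have hfn : f.IsNormalizedEigenform := H683.isNormalizedEigenform_of_eigen f hf1 hfT hfU
  refine ⟨f, hfn, fun ℓ hℓ hℓM hℓS => ?_, ?_⟩
  · have h1 := hfW.1 ℓ hℓ hℓM hℓS
    have h2 := congrArg (fun F : CuspForm (Gamma0 M) 2 => (⇑F : UpperHalfPlane → ℂ)) h1
    simp only [CuspForm.coe_heckeTLin_apply] at h2
    exact (H683.eigenvalue_T_eq_coeff f hf1 hℓ (lam ℓ) (by simpa using h2)).symm
  · have h1 := hfW.2
    have h2 := congrArg (fun F : CuspForm (Gamma0 M) 2 => (⇑F : UpperHalfPlane → ℂ)) h1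
    simp only [CuspForm.coe_heckeULin_apply] at h2
    exact (H683.eigenvalue_U_eq_coeff f hf1 hq a (by simpa using h2)).symm

end Fermat.Agent.S38.H53
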