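import Fermat.Agent.S38.H53.STUq
import Fermat.Agent.S38.H53.EigenUq
import Fermat.Agent.S22

/-!
# Row HARD, cell HECKE, leaf IA-ST: the abstract core **"(ST) from a `U_q`-extended action"**
(helper53, squad-lead S55/S53)

The Betti side of Ihara avoidance produces, on the trivial-character module `V'` of level
`Γ₀(N¹) ∩ Γ_H(Q)` (`q ∥ N¹` the pivot), a ring homomorphism

  `Ψ : heckeAlgebra N¹ 2 S →+* End(V')`,   `S ∌ q`, all other primes of `N¹` in `S`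

(MODQ-U, helper264 `exists_heckeActionU_sub_of_odd`: `T_ℓ ↦ ⟨ℓ⟩^m T_ℓ`, `U_q ↦ ⟨q⟩^m U_q`) with
`Ψ(U_q)² = 1` ((MIN) + control at level `N¹ / q` + the identity (UU)).  This file turns this,
and the fact that a point `x` of the Hecke ring `T_Q` OCCURS in `V'`
(`hocc`: every integer polynomial relation of the `Ψ(T_ℓ)` holds for the values `x(T_ℓ)`), into
the vanishing of the Steinberg element at `x`:

* `eq_zero_of_ker_le_h53` : incomparability for characters of a ring integral over `ℤ` with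
  values in a characteristic-zero domain;
* `heckeAlgebra_induction_h53` : induction principle for `heckeAlgebra N 2 S`;
* `exists_char_of_action_h53` : (pure algebra, lying-over) `Ψ`, `Ψ(U_q)² = 1`, `hocc` ⟹ a
  character `c : heckeAlgebra N 2 S →+* D` with `c(T_ℓ) = v_ℓ` and `c(U_q)² = 1`;
* `exists_eigenform_of_char_Uq_h53` : a character `c` of the Hecke algebra WITH `U_q`, values in a
  characteristic-zero domain ⟹ a normalized eigenform `g`, `j : R →+* D` (`R ⊆ ℂ`),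
  `j(a_ℓ(g)) = c(T_ℓ)`, `j(a_q(g)) = c(U_q)`, and `c(U_q)² = 1 → a_q(g)² = 1`;
* `isUqPoint_of_char_h53`, `isUqPoint_of_action_h53` : the point `x` is a `U_q`-point;
* `st_of_action_h53` : `x (tr ρ(φ)² - (1 + q)²) = 0` for every Frobenius `φ` at `q`
  (frozen S35 as the hypothesis `S58.S35Statement`).
-/

set_option autoImplicit false

open Polynomial IsLocalRing CuspForm CongruenceSubgroup ModularFormClass

namespace Fermat.Agent.S38.H53

open Fermat.Agent.S58 Fermat.Agent.S38.H113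

/-! ## Incomparability -/

/-- If `B` is integral over `ℤ`, `χ : B → D` is a character with values in a domain of
characteristic zero and `χ' : B → ℂ` a character with `ker χ' ≤ ker χ`, then
`ker χ ≤ ker χ'`. -/
theorem eq_zero_of_ker_le_h53 {B D : Type*} [CommRing B] [Algebra.IsIntegral ℤ B]
    [CommRing D] [IsDomain D] [CharZero D]
    (χ : B →+* D) (χ' : B →+* ℂ) (hker : RingHom.ker χ' ≤ RingHom.ker χ)
    {c : B} (hc : χ c = 0) : χ' c = 0 := by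
  by_contra hx
  obtain ⟨P, hPmonic, hP⟩ := Algebra.IsIntegral.isIntegral (R := ℤ) c
  have hP0 : P ≠ 0 := hPmonic.ne_zero
  obtain ⟨Q, hPQ, hQ⟩ := Polynomial.exists_eq_pow_rootMultiplicity_mul_and_not_dvd P hP0 0
  rw [map_zero, sub_zero] at hPQ hQ
  have hQ0 : Q.coeff 0 ≠ 0 := by
    intro h0
    apply hQ
    exact Polynomial.X_dvd_iff.mpr h0
  have e1 : ∀ R : ℤ[X], χ' (eval₂ (algebraMap ℤ B) c R) = eval₂ (Int.castRingHom ℂ) (χ' c) R := by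
    intro R
    rw [Polynomial.hom_eval₂]
    congr 1
    exact RingHom.ext_int _ _
  have e2 : ∀ R : ℤ[X], χ (eval₂ (algebraMap ℤ B) c R) = eval₂ (Int.castRingHom D) (χ c) R := by
    intro R
    rw [Polynomial.hom_eval₂]
    congr 1
    exact RingHom.ext_int _ _
  have h1 := e1 P
  rw [hP, map_zero, hPQ, eval₂_mul, eval₂_pow, eval₂_X] at h1
  have h2 : eval₂ (Int.castRingHom ℂ) (χ' c) Q = 0 := by
    rcases mul_eq_zero.mp h1.symm with h | h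
    · exact absurd h (pow_ne_zero _ hx)
    · exact h
  have h3 : eval₂ (algebraMap ℤ B) c Q ∈ RingHom.ker χ := by
    apply hker
    rw [RingHom.mem_ker, e1 Q, h2]
  rw [RingHom.mem_ker, e2 Q, hc, Polynomial.eval₂_at_zero] at h3
  rw [eq_intCast, Int.cast_eq_zero] at h3
  exact hQ0 h3

/-! ## Induction on the Hecke algebra -/

section Ind

variable {N : ℕ} [NeZero N] {S : Set ℕ}

/-- Induction principle for the Hecke algebra `heckeAlgebra N 2 S`. -/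
theorem heckeAlgebra_induction_h53 {p : heckeAlgebra N 2 S → Prop}
    (hT : ∀ (ℓ : ℕ) (hℓ : ℓ.Prime) (hℓN : ¬ ℓ ∣ N) (hℓS : ℓ ∉ S),
      p (heckeAlgebra.T hℓ hℓN hℓS))
    (hU : ∀ (r : ℕ) (hr : r.Prime) (hrN : r ∣ N) (hrS : r ∉ S),
      p (heckeAlgebra.U hr hrN hrS))
    (hint : ∀ n : ℤ, p (algebraMap ℤ (heckeAlgebra N 2 S) n))
    (hadd : ∀ a b, p a → p b → p (a + b)) (hmul : ∀ a b, p a → p b → p (a * b))
    (b : heckeAlgebra N 2 S) : p b := by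
  obtain ⟨b, hb⟩ := b
  refine Algebra.adjoin_induction (p := fun x hx => p ⟨x, hx⟩) ?_ ?_ ?_ ?_ hb
  · rintro x (⟨ℓ, hℓ, hℓN, hℓS, rfl⟩ | ⟨q, hqN, hq, hqS, rfl⟩)
    · exact hT ℓ hℓ hℓN hℓS
    · exact hU q hq hqN hqS
  · intro n
    exact hint n
  · intro x y hx hy ihx ihy
    exact hadd _ _ ihx ihy
  · intro x y hx hy ihx ihy
    exact hmul _ _ ihx ihy

end Ind

/-! ## From the action to a character: commutative algebra -/

section Alg

variable {B : Type*} [CommRing B] [Algebra.IsIntegral ℤ B]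
  {D : Type*} [CommRing D] [IsDomain D]

/-- **Lying-over with a square root of `1`.**  `B` integral over `ℤ`, `B₀ ⊆ B` a subalgebra,
`I` an ideal of `B`, `x₀ : B₀ → D` a character (`D` a domain) killing `B₀ ∩ I`, `U ∈ B` with
`U² ≡ 1` modulo `I`, and `B` generated by `B₀` and `U` (`hgen`).  Then `x₀` extends to a
character `c` of `B` killing `I`, and `c(U)² = 1`. -/
theorem exists_char_ext_h53 (B₀ : Subalgebra ℤ B) (I : Ideal B) (x₀ : B₀ →+* D)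
    (hx₀ : ∀ b : B₀, (b : B) ∈ I → x₀ b = 0) (U : B) (hU : U * U - 1 ∈ I)
    (hgen : ∀ p : B → Prop, (∀ b : B₀, p (b : B)) → p U →
      (∀ a b, p a → p b → p (a + b)) → (∀ a b, p a → p b → p (a * b)) → ∀ b, p b) :
    ∃ c : B →+* D, (∀ b : B₀, c (b : B) = x₀ b) ∧ c U ^ 2 = 1 ∧ ∀ b ∈ I, c b = 0 := by
  classical
  have : Algebra.IsIntegral B₀ B := Algebra.IsIntegral.tower_top (R := ℤ) (S := B₀) (T := B)
  have h𝔭 : (RingHom.ker x₀).IsPrime := RingHom.ker_isPrime x₀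
  have hIP : I.comap (algebraMap B₀ B) ≤ RingHom.ker x₀ := by
    intro b hb
    rw [Ideal.mem_comap] at hb
    rw [RingHom.mem_ker]
    exact hx₀ b hb
  obtain ⟨𝔓, h𝔓I, h𝔓prime, h𝔓comap⟩ :=
    Ideal.exists_ideal_over_prime_of_isIntegral (RingHom.ker x₀) I hIP
  have := h𝔓prime
  set c₁ : B →+* (B ⧸ 𝔓) := Ideal.Quotient.mk 𝔓 with hc₁
  have hc₁I : ∀ b ∈ I, c₁ b = 0 := fun b hb => Ideal.Quotient.eq_zero_iff_mem.mpr (h𝔓I hb)
  have hUU₁ : c₁ (U * U) = 1 := by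
    have h2 := hc₁I _ hU
    rw [map_sub, map_one, sub_eq_zero] at h2
    exact h2
  have hU₁ : c₁ U = 1 ∨ c₁ U = -1 := by
    have h1 : (c₁ U - 1) * (c₁ U + 1) = 0 := by
      have : c₁ U * c₁ U = 1 := by rw [← map_mul]; exact hUU₁
      linear_combination this
    rcases mul_eq_zero.mp h1 with h | h
    · exact Or.inl (sub_eq_zero.mp h)
    · exact Or.inr (eq_neg_of_add_eq_zero_left h)
  set c₀ : B₀ →+* (B ⧸ 𝔓) := c₁.comp (algebraMap B₀ B) with hc₀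
  have hkerc₀ : RingHom.ker c₀ ≤ RingHom.ker x₀ := by
    intro b hb
    rw [← h𝔓comap, Ideal.mem_comap]
    rw [RingHom.mem_ker, hc₀, RingHom.comp_apply] at hb
    exact Ideal.Quotient.eq_zero_iff_mem.mp hb
  have hmem : ∀ b : B, c₁ b ∈ c₀.range := by
    refine hgen (fun b => c₁ b ∈ c₀.range) ?_ ?_ ?_ ?_
    · intro b
      exact ⟨b, rfl⟩
    · rcases hU₁ with h | h
      · rw [h]
        exact c₀.range.one_mem
      · rw [h]
        exact c₀.range.neg_mem c₀.range.one_mem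
    · intro a b ha hb
      rw [map_add]
      exact c₀.range.add_mem ha hb
    · intro a b ha hb
      rw [map_mul]
      exact c₀.range.mul_mem ha hb
  set c₁' : B →+* c₀.range := c₁.codRestrict c₀.range hmem with hc₁'
  refine ⟨(rangeLift c₀ x₀ hkerc₀).comp c₁', fun b => ?_, ?_, fun b hb => ?_⟩
  · have e1 : c₁' (b : B) = c₀.rangeRestrict b := Subtype.ext rfl
    rw [RingHom.comp_apply, e1, rangeLift_apply]
  · have e1 : c₁' (U * U) = 1 := Subtype.ext hUU₁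
    rw [pow_two, ← map_mul, RingHom.comp_apply, e1, map_one]
  · have e1 : c₁' b = 0 := Subtype.ext (hc₁I b hb)
    rw [RingHom.comp_apply, e1, map_zero]

end Alg

/-! ## From the action to a character: the Hecke algebra -/

/-- The good primes of level `N` away from `S` (definitionally `S59.TW.H658.GoodPrime N S`). -/
abbrev GoodIdx (N : ℕ) (S : Set ℕ) : Type := {ℓ : ℕ // ℓ.Prime ∧ ¬ ℓ ∣ N ∧ ℓ ∉ S}

/-- The family of the `T_ℓ` in the Hecke algebra. -/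
noncomputable def tFamA (N : ℕ) [NeZero N] (S : Set ℕ) (i : GoodIdx N S) : heckeAlgebra N 2 S :=
  heckeAlgebra.T i.2.1 i.2.2.1 i.2.2.2

section Char

variable {N : ℕ} [NeZero N] {S : Set ℕ}

/-- **From a `U_q`-extended action to a character.**
`Ψ` a ring homomorphism from the Hecke algebra `heckeAlgebra N 2 S` (`q ∣ N`, `q ∉ S`, all other
primes of `N` in `S`, so that the algebra is generated by the `T_ℓ`, `ℓ ∉ S`, and by `U_q`) to
any ring `E` with `Ψ(U_q)² = 1`; `v_ℓ ∈ D` (a domain) values such that every integer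
noncommutative polynomial `P` in the `T_ℓ` with `Ψ(P(T)) = 0` satisfies `P(v) = 0`.
Then there is a character `c` of the Hecke algebra with `c(T_ℓ) = v_ℓ` and `c(U_q)² = 1`. -/
theorem exists_char_of_action_h53 {q : ℕ} (hq : q.Prime) (hqN : q ∣ N) (hqS : q ∉ S)
    (hNS : ∀ r : ℕ, r.Prime → r ∣ N → r ∉ S → r = q)
    {E : Type*} [Ring E] (Ψ : heckeAlgebra N 2 S →+* E)
    (hUU : Ψ (heckeAlgebra.U hq hqN hqS) * Ψ (heckeAlgebra.U hq hqN hqS) = 1)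
    {D : Type*} [CommRing D] [IsDomain D] (v : GoodIdx N S → D)
    (hocc : ∀ P : FreeAlgebra ℤ (GoodIdx N S),
      Ψ (FreeAlgebra.lift ℤ (tFamA N S) P) = 0 → FreeAlgebra.lift ℤ v P = 0) :
    ∃ c : heckeAlgebra N 2 S →+* D,
      (∀ i : GoodIdx N S, c (tFamA N S i) = v i) ∧ c (heckeAlgebra.U hq hqN hqS) ^ 2 = 1 := by
  classical
  have hfin : Module.Finite ℤ (heckeAlgebra N 2 S) := Fermat.Agent.S22.result N 2 S
  have hint : Algebra.IsIntegral ℤ (heckeAlgebra N 2 S) := inferInstance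
  -- the character of `B₀ = ℤ[T_ℓ]`
  have hker0 : RingHom.ker
      ((FreeAlgebra.lift ℤ (tFamA N S)).rangeRestrict :
        FreeAlgebra ℤ (GoodIdx N S) →+* (FreeAlgebra.lift ℤ (tFamA N S)).range) ≤
      RingHom.ker (FreeAlgebra.lift ℤ v : FreeAlgebra ℤ (GoodIdx N S) →+* D) := by
    intro P hP
    rw [RingHom.mem_ker] at hP ⊢
    have h1 : FreeAlgebra.lift ℤ (tFamA N S) P = 0 := congrArg Subtype.val hP
    exact hocc P (by rw [h1, map_zero])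
  obtain ⟨x₀, hx₀P⟩ : ∃ x₀ : (FreeAlgebra.lift ℤ (tFamA N S)).range →+* D,
      ∀ P : FreeAlgebra ℤ (GoodIdx N S),
        x₀ ((FreeAlgebra.lift ℤ (tFamA N S)).rangeRestrict P) = FreeAlgebra.lift ℤ v P :=
    ⟨RingHom.liftOfRightInverse
      ((FreeAlgebra.lift ℤ (tFamA N S)).rangeRestrict :
        FreeAlgebra ℤ (GoodIdx N S) →+* (FreeAlgebra.lift ℤ (tFamA N S)).range)
      (Function.surjInv (FreeAlgebra.lift ℤ (tFamA N S)).rangeRestrict_surjective)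
      (Function.rightInverse_surjInv (FreeAlgebra.lift ℤ (tFamA N S)).rangeRestrict_surjective)
      ⟨(FreeAlgebra.lift ℤ v : FreeAlgebra ℤ (GoodIdx N S) →+* D), hker0⟩,
      fun P => RingHom.liftOfRightInverse_comp_apply _ _ _ _ P⟩
  have hx₀I : ∀ b : (FreeAlgebra.lift ℤ (tFamA N S)).range,
      (b : heckeAlgebra N 2 S) ∈ RingHom.ker Ψ → x₀ b = 0 := by
    intro b hb
    obtain ⟨P, rfl⟩ := (FreeAlgebra.lift ℤ (tFamA N S)).rangeRestrict_surjective b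
    rw [RingHom.mem_ker] at hb
    rw [hx₀P]
    exact hocc P hb
  have hUI : heckeAlgebra.U hq hqN hqS * heckeAlgebra.U hq hqN hqS - 1 ∈ RingHom.ker Ψ := by
    rw [RingHom.mem_ker, map_sub, map_mul, map_one, hUU, sub_self]
  have hgen : ∀ p : heckeAlgebra N 2 S → Prop,
      (∀ b : (FreeAlgebra.lift ℤ (tFamA N S)).range, p (b : heckeAlgebra N 2 S)) →
      p (heckeAlgebra.U hq hqN hqS) →
      (∀ a b, p a → p b → p (a + b)) → (∀ a b, p a → p b → p (a * b)) → ∀ b, p b := by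
    intro p hp₀ hpU hadd hmul b
    refine heckeAlgebra_induction_h53 (p := p) ?_ ?_ ?_ hadd hmul b
    · intro ℓ hℓ hℓN hℓS
      exact hp₀ ⟨tFamA N S ⟨ℓ, hℓ, hℓN, hℓS⟩, ⟨FreeAlgebra.ι ℤ ⟨ℓ, hℓ, hℓN, hℓS⟩, by simp⟩⟩
    · intro r hr hrN hrS
      obtain rfl := hNS r hr hrN hrS
      exact hpU
    · intro n
      exact hp₀ (algebraMap ℤ _ n)
  obtain ⟨c, hc, hcU, -⟩ := exists_char_ext_h53 (D := D)
    (FreeAlgebra.lift ℤ (tFamA N S)).range (RingHom.ker Ψ) x₀ hx₀I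
    (heckeAlgebra.U hq hqN hqS) hUI hgen
  refine ⟨c, fun i => ?_, hcU⟩
  have h1 := hc ((FreeAlgebra.lift ℤ (tFamA N S)).rangeRestrict (FreeAlgebra.ι ℤ i))
  rw [hx₀P] at h1
  have h3 : FreeAlgebra.lift ℤ v (FreeAlgebra.ι ℤ i) = v i := by simp
  have h4 : (((FreeAlgebra.lift ℤ (tFamA N S)).rangeRestrict
      (FreeAlgebra.ι ℤ i) : (FreeAlgebra.lift ℤ (tFamA N S)).range) : heckeAlgebra N 2 S)
      = tFamA N S i := by simp
  rw [h4, h3] at h1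
  exact h1

end Char

/-! ## From a character with `U_q` to a normalized eigenform -/

section Eigen

variable {N : ℕ} [NeZero N] {S : Set ℕ}

/-- **Character with `U_q` ⟹ normalized eigenform.**  A character `c` of the Hecke algebra
`heckeAlgebra N 2 S` (`q ∣ N`, `q ∉ S`) with values in a domain of characteristic zero is the
image, along a ring homomorphism `j` defined on a subring of `ℂ`, of the eigencharacter `χ'` of a
normalized eigenform `g` of level `N`: `a_ℓ(g) = χ'(T_ℓ)`, `a_q(g) = χ'(U_q)`, `j ∘ χ' = c`.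
In particular `c(U_q)² = 1` implies `a_q(g)² = 1`. -/
theorem exists_eigenform_of_char_Uq_h53 {D : Type*} [CommRing D] [IsDomain D] [CharZero D]
    {q : ℕ} (hq : q.Prime) (hqN : q ∣ N) (hqS : q ∉ S)
    (c : heckeAlgebra N 2 S →+* D) :
    ∃ (χ' : heckeAlgebra N 2 S →+* ℂ) (j : χ'.range →+* D) (g : CuspForm (Gamma0 N) 2),
      g.IsNormalizedEigenform ∧
      (∀ t, j (χ'.rangeRestrict t) = c t) ∧
      (∀ (ℓ : ℕ) (hℓ : ℓ.Prime) (hℓN : ¬ ℓ ∣ N) (hℓS : ℓ ∉ S),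
        qCoeff g ℓ = χ' (heckeAlgebra.T hℓ hℓN hℓS)) ∧
      qCoeff g q = χ' (heckeAlgebra.U hq hqN hqS) ∧
      (c (heckeAlgebra.U hq hqN hqS) ^ 2 = 1 → qCoeff g q ^ 2 = 1) := by
  classical
  have := Fermat.Agent.Lib.Newform.H863.finiteDimensional_cuspForm N
  have hfin : Module.Finite ℤ (heckeAlgebra N 2 S) := Fermat.Agent.S22.result N 2 S
  have hint : Algebra.IsIntegral ℤ (heckeAlgebra N 2 S) := inferInstance
  have : (RingHom.ker c).IsPrime := RingHom.ker_isPrime c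
  obtain ⟨h, χ', hh, hχ', hker⟩ := Fermat.Agent.S49.exists_eigenvector_ker_le
    (K := ℂ) (V := CuspForm (Gamma0 N) 2)
    ((heckeAlgebra N 2 S).val.toRingHom) Subtype.val_injective (RingHom.ker c)
  let lam : ℕ → ℂ := fun ℓ =>
    if hc : ℓ.Prime ∧ ¬ ℓ ∣ N ∧ ℓ ∉ S then χ' (heckeAlgebra.T hc.1 hc.2.1 hc.2.2) else 0
  have hlam : ∀ (ℓ : ℕ) (hℓ : ℓ.Prime) (hℓN : ¬ ℓ ∣ N) (hℓS : ℓ ∉ S),
      lam ℓ = χ' (heckeAlgebra.T hℓ hℓN hℓS) := by
    intro ℓ hℓ hℓN hℓS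
    simp only [lam, dif_pos (⟨hℓ, hℓN, hℓS⟩ : ℓ.Prime ∧ ¬ ℓ ∣ N ∧ ℓ ∉ S)]
  obtain ⟨g, hg, hgl, hgq⟩ := exists_normalizedEigenform_of_eigenvector_Uq S lam hq hqN
    (χ' (heckeAlgebra.U hq hqN hqS)) h hh
    (fun ℓ hℓ hℓN hℓS => by
      have h1 := hχ' (heckeAlgebra.T hℓ hℓN hℓS)
      rw [hlam ℓ hℓ hℓN hℓS]
      exact h1)
    (hχ' (heckeAlgebra.U hq hqN hqS))
  refine ⟨χ', rangeLift χ' c hker, g, hg, fun t => rangeLift_apply χ' c hker t,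
    fun ℓ hℓ hℓN hℓS => ?_, hgq, fun hc2 => ?_⟩
  · rw [hgl ℓ hℓ hℓN hℓS, hlam ℓ hℓ hℓN hℓS]
  · have h1 : c (heckeAlgebra.U hq hqN hqS * heckeAlgebra.U hq hqN hqS - 1) = 0 := by
      rw [map_sub, map_mul, map_one, ← pow_two, hc2, sub_self]
    have h2 := eq_zero_of_ker_le_h53 c χ' hker h1
    rw [map_sub, map_mul, map_one, sub_eq_zero, ← pow_two] at h2
    rw [hgq, h2]

end Eigen

/-! ## The point is a `U_q`-point; the Steinberg element vanishes -/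

section Point

variable {N₀ : ℕ} [NeZero N₀] {Sig₀ : Finset ℕ}
  {𝒪 : Type} [CommRing 𝒪] [IsDomain 𝒪] [IsDiscreteValuationRing 𝒪]
  [IsAdicComplete (maximalIdeal 𝒪) 𝒪]
  {θ : CuspForm.heckeAlgebra N₀ 2 (↑Sig₀ : Set ℕ) →+* ResidueField 𝒪}
  {T : Type} [CommRing T] [IsLocalRing T] [IsNoetherianRing T]
  [IsAdicComplete (maximalIdeal T) T] [Algebra 𝒪 T] [IsLocalHom (algebraMap 𝒪 T)]
  [Module.Finite 𝒪 T] [Module.Free 𝒪 T]

/-- **A character with `U_q` makes the point a `U_q`-point.**  `x` a point of the datum `H`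
(level `N₀`, away from `Sig₀`), `c` a character of the Hecke algebra of a level `N` with `q ∥ N`
away from `S ∌ q` (`S` contains `lam` and the primes `≠ q` of `N`) with `c(T_ℓ) = x(T_ℓ)` at the
primes good for both and `c(U_q)² = 1`. -/
theorem isUqPoint_of_char_h53 (H : CuspForm.HeckeGaloisRepDatum N₀ (↑Sig₀ : Set ℕ) 𝒪 θ T)
    {𝒪' : Type} [CommRing 𝒪'] [IsDomain 𝒪'] [CharZero 𝒪'] (x : T →+* 𝒪') (lam : ℕ)
    {N : ℕ} [NeZero N] {q : ℕ} (hq : q.Prime) (hqN : q ∣ N) (hq2 : ¬ q ^ 2 ∣ N)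
    (S : Finset ℕ) (hqS : q ∉ (↑S : Set ℕ)) (hlamS : lam ∈ S)
    (hNS : ∀ r : ℕ, r.Prime → r ∣ N → r ≠ q → r ∈ S)
    (c : heckeAlgebra N 2 (↑S : Set ℕ) →+* 𝒪')
    (hcT : ∀ (ℓ : ℕ) (hℓ : ℓ.Prime) (hℓN : ¬ ℓ ∣ N) (hℓS : ℓ ∉ (↑S : Set ℕ))
      (hℓN₀ : ¬ ℓ ∣ N₀) (hℓSig₀ : ℓ ∉ (↑Sig₀ : Set ℕ)),
      x (H.π (heckeAlgebra.T hℓ hℓN₀ hℓSig₀)) = c (heckeAlgebra.T hℓ hℓN hℓS))
    (hcU : c (heckeAlgebra.U hq hqN hqS) ^ 2 = 1) : IsUqPoint H lam q x := by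
  obtain ⟨χ', j, g, hg, hj, hgT, hgq, hgq2⟩ := exists_eigenform_of_char_Uq_h53 hq hqN hqS c
  have hgood : ∀ ℓ : ℕ, ℓ.Prime → ℓ ∉ (↑(insert q S) : Set ℕ) → ¬ ℓ ∣ N ∧ ℓ ∉ (↑S : Set ℕ) := by
    intro ℓ hℓ hℓS
    have h1 : ℓ ≠ q ∧ ℓ ∉ S := by
      rw [Finset.mem_coe, Finset.mem_insert, not_or] at hℓS
      exact hℓS
    exact ⟨fun hℓN => h1.2 (hNS ℓ hℓ hℓN h1.1), fun h => h1.2 (Finset.mem_coe.mp h)⟩
  have hR : ∀ ℓ : ℕ, ℓ.Prime → ℓ ∉ (↑(insert q S) : Set ℕ) → qCoeff g ℓ ∈ χ'.range := by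
    intro ℓ hℓ hℓS
    rw [hgT ℓ hℓ (hgood ℓ hℓ hℓS).1 (hgood ℓ hℓ hℓS).2]
    exact ⟨_, rfl⟩
  refine ⟨N, inferInstance, g, insert q S, χ'.range, j, hR, ∅, hg,
    Finset.mem_insert_of_mem hlamS, ?_, ?_, hqN, hq2, hgq2 hcU⟩
  · intro r hr hrN
    by_cases hrq : r = q
    · rw [hrq]
      exact Finset.mem_insert_self q S
    · exact Finset.mem_insert_of_mem (hNS r hr hrN hrq)
  · intro ℓ hℓ hℓN₀ hℓSig₀ hℓS _
    rw [hcT ℓ hℓ (hgood ℓ hℓ hℓS).1 (hgood ℓ hℓ hℓS).2 hℓN₀ hℓSig₀, ← hj]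
    congr 1
    exact Subtype.ext (hgT ℓ hℓ (hgood ℓ hℓ hℓS).1 (hgood ℓ hℓ hℓS).2).symm

/-- **The point is a `U_q`-point, from a `U_q`-extended action in which it occurs.** -/
theorem isUqPoint_of_action_h53 (H : CuspForm.HeckeGaloisRepDatum N₀ (↑Sig₀ : Set ℕ) 𝒪 θ T)
    {𝒪' : Type} [CommRing 𝒪'] [IsDomain 𝒪'] [CharZero 𝒪'] (x : T →+* 𝒪') (lam : ℕ)
    {N : ℕ} [NeZero N] {q : ℕ} (hq : q.Prime) (hqN : q ∣ N) (hq2 : ¬ q ^ 2 ∣ N)
    (S : Finset ℕ) (hqS : q ∉ (↑S : Set ℕ)) (hlamS : lam ∈ S)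
    (hNS : ∀ r : ℕ, r.Prime → r ∣ N → r ≠ q → r ∈ S)
    (hgood : ∀ ℓ : ℕ, ℓ.Prime → ¬ ℓ ∣ N → ℓ ∉ (↑S : Set ℕ) →
      ¬ ℓ ∣ N₀ ∧ ℓ ∉ (↑Sig₀ : Set ℕ))
    {E : Type*} [Ring E] (Ψ : heckeAlgebra N 2 (↑S : Set ℕ) →+* E)
    (hUU : Ψ (heckeAlgebra.U hq hqN hqS) * Ψ (heckeAlgebra.U hq hqN hqS) = 1)
    (hocc : ∀ P : FreeAlgebra ℤ (GoodIdx N (↑S : Set ℕ)),
      Ψ (FreeAlgebra.lift ℤ (tFamA N (↑S : Set ℕ)) P) = 0 →
        FreeAlgebra.lift ℤ (fun i : GoodIdx N (↑S : Set ℕ) =>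
          x (H.π (heckeAlgebra.T i.2.1 (hgood i.1 i.2.1 i.2.2.1 i.2.2.2).1
            (hgood i.1 i.2.1 i.2.2.1 i.2.2.2).2))) P = 0) :
    IsUqPoint H lam q x := by
  obtain ⟨c, hcT, hcU⟩ := exists_char_of_action_h53 hq hqN hqS
    (fun r hr hrN hrS => by
      by_contra hrq
      exact hrS (Finset.mem_coe.mpr (hNS r hr hrN hrq)))
    Ψ hUU _ hocc
  exact isUqPoint_of_char_h53 H x lam hq hqN hq2 S hqS hlamS hNS c
    (fun ℓ hℓ hℓN hℓS hℓN₀ hℓSig₀ => (hcT ⟨ℓ, hℓ, hℓN, hℓS⟩).symm) hcU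

/-- **(ST) at a point from a `U_q`-extended action in which the point occurs.**
`H` a Hecke–Galois datum (any level `N₀`), `x` a characteristic-zero point of it (complete DVR,
residue characteristic `lam`), `q ≠ lam` a prime, `N` a level with `q ∥ N`;
`Ψ : heckeAlgebra N 2 S →+* E` (`S ∌ q`) with `Ψ(U_q)² = 1`, such that every integer polynomial
relation of the `Ψ(T_ℓ)` holds for the `x(T_ℓ)`.  Then the Steinberg element
`tr ρ(φ)² - (1 + q)²` vanishes at `x` for every Frobenius `φ` at `q`. -/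
theorem st_of_action_h53 (hS35 : S35Statement)
    (H : CuspForm.HeckeGaloisRepDatum N₀ (↑Sig₀ : Set ℕ) 𝒪 θ T)
    {𝒪' : Type} [CommRing 𝒪'] [IsDomain 𝒪'] [IsDiscreteValuationRing 𝒪']
    [IsAdicComplete (maximalIdeal 𝒪') 𝒪'] [Finite (ResidueField 𝒪')] [CharZero 𝒪']
    (x : T →+* 𝒪') (hx : IsLocalHom x)
    (lam : ℕ) [Fact lam.Prime] (hlam : (lam : 𝒪') ∈ maximalIdeal 𝒪')
    {N : ℕ} [NeZero N] {q : ℕ} (hq : q.Prime) (hqlam : q ≠ lam) (hqN : q ∣ N)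
    (hq2 : ¬ q ^ 2 ∣ N)
    (S : Finset ℕ) (hqS : q ∉ (↑S : Set ℕ)) (hlamS : lam ∈ S)
    (hNS : ∀ r : ℕ, r.Prime → r ∣ N → r ≠ q → r ∈ S)
    (hgood : ∀ ℓ : ℕ, ℓ.Prime → ¬ ℓ ∣ N → ℓ ∉ (↑S : Set ℕ) →
      ¬ ℓ ∣ N₀ ∧ ℓ ∉ (↑Sig₀ : Set ℕ))
    {E : Type*} [Ring E] (Ψ : heckeAlgebra N 2 (↑S : Set ℕ) →+* E)
    (hUU : Ψ (heckeAlgebra.U hq hqN hqS) * Ψ (heckeAlgebra.U hq hqN hqS) = 1)
    (hocc : ∀ P : FreeAlgebra ℤ (GoodIdx N (↑S : Set ℕ)),
      Ψ (FreeAlgebra.lift ℤ (tFamA N (↑S : Set ℕ)) P) = 0 →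
        FreeAlgebra.lift ℤ (fun i : GoodIdx N (↑S : Set ℕ) =>
          x (H.π (heckeAlgebra.T i.2.1 (hgood i.1 i.2.1 i.2.2.1 i.2.2.2).1
            (hgood i.1 i.2.1 i.2.2.1 i.2.2.2).2))) P = 0)
    (P : ValuationSubring Qb) (hP : P.LiesOverPrime q) (φ : GQ) (hφ : P.IsFrobeniusAt φ q) :
    x (H.ρ.trace φ ^ 2 - ((1 + q : ℕ) : T) ^ 2) = 0 :=
  stUq_of_isUqPoint hS35 H x hx lam hlam q hq hqlam
    (isUqPoint_of_action_h53 H x lam hq hqN hq2 S hqS hlamS hNS hgood Ψ hUU hocc) P hP φ hφ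

end Point

end Fermat.Agent.S38.H53
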