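import Fermat.Agent.Lib.Newform.Main
import Fermat.Agent.Lib.Newform.H443.SMOCore
import Fermat.Agent.Lib.Newform.H743.SpecMainD
import Fermat.Agent.Lib.Newform.H263.Eigenform

/-!
# Row HARD, cell HECKE, leaf (ST): `a_q² = 1 ⟹ new at q`   (helper53)

The NEWFORM library proves `IsNewformAt q ⟹ a_q² = 1` at `q ∥ N` (`badCoeffAt`).  Here is the
CONVERSE, which needs an Archimedean input (the strict trivial bound of helper263):

`isNewformAt_of_qCoeff_sq_eq_one` : a normalized eigenform `g` of level `N`, `q ∥ N`, with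
`a_q(g)² = 1` is `IsNewformAt q` (its eigensystem away from `N` does not occur at level `N / q`).

This is the interface between the Betti side of Ihara avoidance (where `U_q² = 1` on the localized
module `M¹_Q` follows from the vanishing of the two traces to the level `L / q`) and the frozen
statement S35 (which needs a Prelude-newform whose level is divisible by `q`).

Proof.  Let `g₂` be a normalized eigenform of level `M = N / q` with `a_ℓ(g₂) = a_ℓ(g)` for all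
primes `ℓ ∤ N`; put `a = a_q(g)`, `b = a_q(g₂)`, `κ = 1 + q - a b`.  Then `a_n(g - g₂) = 0` for
`n` prime to `N`, so by the main lemma of Atkin–Lehner `a_{n q}(g - g₂) = a_n(d)` for all `n`
prime to `M`, with `d` of level `M`.  A computation with the `T_q`-coefficient formula at level `M`
gives `a_n((T_q - b) d) = κ a_n(g)` for `n` prime to `M`, then
`a_n((T_q - a(q+1))(T_q - b) d) = -q a κ [q ∤ n] a_n(g)`, so
`F'' = (T_q - a(q+1))(T_q - b) d + q a κ g₂` (level `M`) has `a_n(F'') = 0` for `n` prime to `N`,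
hence for `n` prime to `M` ("almost all ⟹ all", helper743).  The coefficients `n = q`, `q²` give
`κ b = 0 = κ (b² - q)`, so `κ = 0`, `b = a (q + 1)`, `b² = (q + 1)²`: excluded by the strict bound.
-/

set_option autoImplicit false

open CongruenceSubgroup ModularFormClass ModularForm UpperHalfPlane

namespace Fermat.Agent.S38.H53

open Fermat.Agent.Lib.Newform

/-- The `T_q`-coefficient formula for cusp forms of weight `2` and level prime to `q`. -/
theorem qCoeff_heckeTLin_h53 {M q : ℕ} (hq : q.Prime) (hqM : ¬ q ∣ M)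
    (f : CuspForm (Gamma0 M) 2) (n : ℕ) :
    qCoeff ⇑(CuspForm.heckeTLin 2 hq hqM f) n =
      qCoeff ⇑f (n * q) + if q ∣ n then (q : ℂ) * qCoeff ⇑f (n / q) else 0 := by
  rw [CuspForm.coe_heckeTLin_apply, H683.qCoeff_heckeT_cusp 2 f hq.ne_zero, coeffHeckeT_apply]
  norm_num

/-- `q`-coefficients of `T_q f - c f`. -/
theorem qCoeff_heckeTLin_sub_smul_h53 {M q : ℕ} (hq : q.Prime) (hqM : ¬ q ∣ M)
    (f : CuspForm (Gamma0 M) 2) (c : ℂ) (n : ℕ) :
    qCoeff ⇑(CuspForm.heckeTLin 2 hq hqM f - c • f) n =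
      qCoeff ⇑f (n * q) + (if q ∣ n then (q : ℂ) * qCoeff ⇑f (n / q) else 0)
        - c * qCoeff ⇑f n := by
  rw [H683.qCoeff_sub_cusp, H683.qCoeff_smul_cusp, qCoeff_heckeTLin_h53]

/-- If `q ∥ N` then `q ∤ N / q`. -/
theorem not_dvd_div_h53 {N q : ℕ} (hqN : q ∣ N) (hq2 : ¬ q ^ 2 ∣ N) :
    ¬ q ∣ N / q := by
  intro h
  apply hq2
  obtain ⟨c, hc⟩ := h
  have : N = q * (N / q) := (Nat.mul_div_cancel' hqN).symm
  rw [this, hc, pow_two]
  exact ⟨c, by ring⟩

/-- **(ST-UQ), forms side.**  A normalized eigenform of level `N`, `q ∥ N`, with `a_q² = 1` is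
new at `q`: its good eigensystem does not occur at the level `N / q`. -/
theorem not_occurs_of_qCoeff_sq_eq_one {N q : ℕ} [NeZero N] (hq : q.Prime) (hqN : q ∣ N)
    (hq2 : ¬ q ^ 2 ∣ N) {g : CuspForm (Gamma0 N) 2} (hg : g.IsNormalizedEigenform)
    (ha : qCoeff ⇑g q ^ 2 = 1) : ¬ CuspForm.GoodEigensystemOccursAt g (N / q) := by
  rintro ⟨g₂, hg₂, hgood⟩
  -- notation
  have hN0 : N ≠ 0 := NeZero.ne N
  have hNq : q * (N / q) = N := Nat.mul_div_cancel' hqN
  have hM0 : N / q ≠ 0 := by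
    intro h0
    rw [h0, mul_zero] at hNq
    exact hN0 hNq.symm
  have : NeZero (N / q) := ⟨hM0⟩
  have hMN : N / q ∣ N := Nat.div_dvd_of_dvd hqN
  have hqM : ¬ q ∣ N / q := not_dvd_div_h53 hqN hq2
  have hq0 : (q : ℂ) ≠ 0 := Nat.cast_ne_zero.mpr hq.ne_zero
  set a : ℂ := qCoeff ⇑g q with ha_def
  set b : ℂ := qCoeff ⇑g₂ q with hb_def
  have haa : a * a = 1 := by rw [← pow_two]; exact ha
  -- coprimality bookkeeping
  have hcopq : ∀ n : ℕ, n.Coprime (N / q) → (n * q).Coprime (N / q) := fun n hn =>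
    Nat.Coprime.mul_left hn ((Nat.Prime.coprime_iff_not_dvd hq).mpr hqM)
  have hcopdiv : ∀ n : ℕ, n.Coprime (N / q) → q ∣ n → (n / q).Coprime (N / q) := fun n hn hqn =>
    Nat.Coprime.coprime_dvd_left (Nat.div_dvd_of_dvd hqn) hn
  have hcopN : ∀ n : ℕ, n.Coprime (N / q) → ¬ q ∣ n → n.Coprime N := by
    intro n hn hqn
    rw [← hNq]
    exact Nat.Coprime.mul_right ((Nat.Prime.coprime_iff_not_dvd hq).mpr hqn).symm hn
  have hcopM : ∀ n : ℕ, n.Coprime N → n.Coprime (N / q) := fun n hn =>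
    Nat.Coprime.coprime_dvd_right hMN hn
  have hcopnq : ∀ n : ℕ, n.Coprime N → ¬ q ∣ n := by
    intro n hn hqn
    have h1 : q ∣ Nat.gcd n N := Nat.dvd_gcd hqn hqN
    rw [hn] at h1
    exact hq.one_lt.ne' (Nat.dvd_one.mp h1)
  -- (3) the coefficients prime to `N` agree
  have h3 : ∀ n : ℕ, n.Coprime N → qCoeff ⇑g₂ n = qCoeff ⇑g n :=
    H443.qCoeff_eq_of_prime_eq (N := N) (N' := N / q) (D := N) dvd_rfl hMN hg hg₂ hgood
  -- Hecke relations
  have hU : ∀ n : ℕ, qCoeff ⇑g (n * q) = a * qCoeff ⇑g n :=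
    fun n => H683.coeff_mul_prime_of_dvd hg hq hqN n
  have hUdiv : ∀ n : ℕ, q ∣ n → a * qCoeff ⇑g (n / q) = qCoeff ⇑g n := by
    intro n hqn
    rw [← hU, Nat.div_mul_cancel hqn]
  have hT : ∀ n : ℕ, qCoeff ⇑g₂ (n * q) +
      (if q ∣ n then (q : ℂ) * qCoeff ⇑g₂ (n / q) else 0) = b * qCoeff ⇑g₂ n :=
    fun n => H683.coeff_mul_prime_of_not_dvd hg₂ hq hqM n
  have hTq : ∀ n : ℕ, qCoeff ⇑g₂ (n * q * q) =
      b * qCoeff ⇑g₂ (n * q) - (q : ℂ) * qCoeff ⇑g₂ n := by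
    intro n
    have h := hT (n * q)
    rw [if_pos (Dvd.intro_left n rfl), Nat.mul_div_cancel n hq.pos] at h
    linear_combination h
  -- the difference `D = g - g₂` at level `N`
  obtain ⟨g₂', hg₂'⟩ := incl (N / q) N hMN g₂
  have hD0 : ∀ n : ℕ, n.Coprime N → qCoeff ⇑(g - g₂') n = 0 := by
    intro n hn
    rw [H683.qCoeff_sub_cusp, hg₂', h3 n hn, sub_self]
  obtain ⟨G, hG⟩ := mainLemma N (g - g₂') hD0
  set d : CuspForm (Gamma0 (N / q)) 2 := G q with hd_def
  -- (K1) the coefficients of `d` prime to `N / q`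
  have hK1 : ∀ n : ℕ, n.Coprime (N / q) →
      qCoeff ⇑d n = a * qCoeff ⇑g n - qCoeff ⇑g₂ (n * q) := by
    intro n hn
    have h1 := hG (n * q)
    rw [H683.qCoeff_sub_cusp, hg₂', hU] at h1
    rw [h1]
    have hqmem : q ∈ N.primeFactors := Nat.mem_primeFactors.mpr ⟨hq, hqN, hN0⟩
    rw [Finset.sum_eq_single q]
    · rw [if_pos (Dvd.intro_left n rfl), Nat.mul_div_cancel n hq.pos]
    · intro p hp hpq
      rw [if_neg]
      intro hpn
      have hpp : p.Prime := (Nat.mem_primeFactors.mp hp).1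
      have hpN : p ∣ N := (Nat.mem_primeFactors.mp hp).2.1
      have hpM : p ∣ N / q := by
        rw [← hNq] at hpN
        rcases (Nat.Prime.dvd_mul hpp).mp hpN with h | h
        · exact absurd ((Nat.prime_dvd_prime_iff_eq hpp hq).mp h) hpq
        · exact h
      rcases (Nat.Prime.dvd_mul hpp).mp hpn with h | h
      · have h2 : p ∣ Nat.gcd n (N / q) := Nat.dvd_gcd h hpM
        rw [hn] at h2
        exact hpp.one_lt.ne' (Nat.dvd_one.mp h2)
      · exact hpq ((Nat.prime_dvd_prime_iff_eq hpp hq).mp h)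
    · intro h
      exact absurd hqmem h
  -- (K2) `F = (T_q - b) d`
  set κ : ℂ := 1 + (q : ℂ) - a * b with hκ_def
  set F : CuspForm (Gamma0 (N / q)) 2 := CuspForm.heckeTLin 2 hq hqM d - b • d with hF_def
  have hK2 : ∀ n : ℕ, n.Coprime (N / q) → qCoeff ⇑F n = κ * qCoeff ⇑g n := by
    intro n hn
    rw [hF_def, qCoeff_heckeTLin_sub_smul_h53, hK1 n hn, hK1 (n * q) (hcopq n hn), hTq n, hU n]
    by_cases hqn : q ∣ n
    · rw [if_pos hqn, hK1 (n / q) (hcopdiv n hn hqn), hUdiv n hqn, Nat.div_mul_cancel hqn]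
      linear_combination (qCoeff ⇑g n) * haa
    · rw [if_neg hqn, h3 n (hcopN n hn hqn)]
      linear_combination (qCoeff ⇑g n) * haa
  -- (K3) `F' = (T_q - a (q + 1)) F`
  set F' : CuspForm (Gamma0 (N / q)) 2 :=
    CuspForm.heckeTLin 2 hq hqM F - (a * ((q : ℂ) + 1)) • F with hF'_def
  have hK3 : ∀ n : ℕ, n.Coprime (N / q) →
      qCoeff ⇑F' n = if q ∣ n then 0 else -((q : ℂ) * a * κ) * qCoeff ⇑g n := by
    intro n hn
    rw [hF'_def, qCoeff_heckeTLin_sub_smul_h53, hK2 n hn, hK2 (n * q) (hcopq n hn), hU n]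
    by_cases hqn : q ∣ n
    · rw [if_pos hqn, if_pos hqn, hK2 (n / q) (hcopdiv n hn hqn)]
      have h5 : qCoeff ⇑g (n / q) = a * qCoeff ⇑g n := by
        have h6 := hUdiv n hqn
        linear_combination a * h6 - (qCoeff ⇑g (n / q)) * haa
      rw [h5]
      ring
    · rw [if_neg hqn, if_neg hqn]
      ring
  -- (K4) `F'' = F' + q a κ g₂` vanishes at all `n` prime to `N`, hence prime to `N / q`
  set F'' : CuspForm (Gamma0 (N / q)) 2 := F' - (-((q : ℂ) * a * κ)) • g₂ with hF''_def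
  have hK4 : ∀ n : ℕ, n.Coprime N → qCoeff ⇑F'' n = 0 := by
    intro n hn
    rw [hF''_def, H683.qCoeff_sub_cusp, H683.qCoeff_smul_cusp, hK3 n (hcopM n hn),
      if_neg (hcopnq n hn), h3 n hn, sub_self]
  have hK5 : ∀ n : ℕ, n.Coprime (N / q) → qCoeff ⇑F'' n = 0 :=
    H743.qCoeff_eq_zero_of_coprime_level 2 (N / q) N (Nat.pos_of_ne_zero hN0) F'' hK4
  -- evaluate at `q` and `q²`
  have hcq : q.Coprime (N / q) := (Nat.Prime.coprime_iff_not_dvd hq).mpr hqM
  have e1 : (q : ℂ) * a * κ * b = 0 := by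
    have h := hK5 q hcq
    rw [hF''_def, H683.qCoeff_sub_cusp, H683.qCoeff_smul_cusp, hK3 q hcq,
      if_pos (dvd_refl q)] at h
    linear_combination h
  have hb2 : qCoeff ⇑g₂ (q * q) = b * b - (q : ℂ) := by
    have h := hT q
    rw [if_pos (dvd_refl q), Nat.div_self hq.pos, hg₂.qCoeff_one] at h
    linear_combination h
  have e2 : (q : ℂ) * a * κ * (b * b - (q : ℂ)) = 0 := by
    have h := hK5 (q * q) (hcopq q hcq)
    rw [hF''_def, H683.qCoeff_sub_cusp, H683.qCoeff_smul_cusp, hK3 (q * q) (hcopq q hcq),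
      if_pos (Dvd.intro q rfl), hb2] at h
    linear_combination h
  have ha0 : a ≠ 0 := by
    intro h0
    rw [h0, mul_zero] at haa
    exact zero_ne_one haa
  -- `κ = 0`
  have hκ0 : κ = 0 := by
    by_contra hκ
    have hqaκ : (q : ℂ) * a * κ ≠ 0 := mul_ne_zero (mul_ne_zero hq0 ha0) hκ
    have hb0 : b = 0 := by
      rcases mul_eq_zero.mp e1 with h | h
      · exact absurd h hqaκ
      · exact h
    rcases mul_eq_zero.mp e2 with h | h
    · exact hqaκ h
    · rw [hb0, mul_zero, zero_sub, neg_eq_zero] at h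
      exact hq0 h
  -- contradiction with the strict bound
  refine H263.qCoeff_sq_ne hg₂ hq hqM ?_
  have hab : a * b = 1 + (q : ℂ) := by
    have := hκ0
    rw [hκ_def] at this
    linear_combination -this
  have hb : b = a * (1 + (q : ℂ)) := by
    linear_combination a * hab - b * haa
  show b ^ 2 = ((q : ℂ) + 1) ^ 2
  rw [hb]
  linear_combination ((1 + (q : ℂ)) ^ 2) * haa

/-- **(ST-UQ), forms side, Prelude form.** -/
theorem isNewformAt_of_qCoeff_sq_eq_one {N q : ℕ} [NeZero N] (hq : q.Prime) (hqN : q ∣ N)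
    (hq2 : ¬ q ^ 2 ∣ N) {g : CuspForm (Gamma0 N) 2} (hg : g.IsNormalizedEigenform)
    (ha : qCoeff ⇑g q ^ 2 = 1) : g.IsNewformAt q :=
  ⟨hg, hqN, not_occurs_of_qCoeff_sq_eq_one hq hqN hq2 hg ha⟩

/-- At `q ∥ N` a normalized eigenform is new at `q` if and only if `a_q² = 1`. -/
theorem isNewformAt_iff_qCoeff_sq_eq_one {N q : ℕ} [NeZero N] (hq : q.Prime) (hqN : q ∣ N)
    (hq2 : ¬ q ^ 2 ∣ N) {g : CuspForm (Gamma0 N) 2} (hg : g.IsNormalizedEigenform) :
    g.IsNewformAt q ↔ qCoeff ⇑g q ^ 2 = 1 :=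
  ⟨fun h => (badCoeffAt N g q hq h).1 hq2,
    fun h => isNewformAt_of_qCoeff_sq_eq_one hq hqN hq2 hg h⟩

/-- The newform attached to a normalized eigenform which is new at `q ∥ N` has level exactly
divisible by `q`. -/
theorem exists_newform_of_isNewformAt {N q : ℕ} [NeZero N] (hq : q.Prime)
    (hq2 : ¬ q ^ 2 ∣ N) {g : CuspForm (Gamma0 N) 2} (hg : g.IsNewformAt q) :
    ∃ (M : ℕ) (_ : NeZero M) (_ : M ∣ N) (G : CuspForm (Gamma0 M) 2), G.IsNewform ∧
      q ∣ M ∧ ¬ q ^ 2 ∣ M ∧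
      ∀ ℓ : ℕ, ℓ.Prime → ¬ ℓ ∣ N → qCoeff ⇑G ℓ = qCoeff ⇑g ℓ := by
  obtain ⟨hgn, hqN, hnocc⟩ := hg
  obtain ⟨M, hMN, G, hG, hGg⟩ := descent N g hgn
  have hN0 : N ≠ 0 := NeZero.ne N
  have hM0 : M ≠ 0 := fun h0 => hN0 (by rw [h0] at hMN; exact zero_dvd_iff.mp hMN)
  have : NeZero M := ⟨hM0⟩
  refine ⟨M, ⟨hM0⟩, hMN, G, hG, ?_, fun h => hq2 (h.trans hMN), hGg⟩
  by_contra hqM
  apply hnocc
  have hNq : q * (N / q) = N := Nat.mul_div_cancel' hqN
  have hMq : M ∣ N / q := by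
    have h1 : M ∣ q * (N / q) := by rw [hNq]; exact hMN
    exact (Nat.Coprime.dvd_mul_left
      ((Nat.Prime.coprime_iff_not_dvd hq).mpr hqM).symm).mp h1
  have hNq0 : N / q ≠ 0 := by
    intro h0
    rw [h0, mul_zero] at hNq
    exact hN0 hNq.symm
  have : NeZero (N / q) := ⟨hNq0⟩
  obtain ⟨g', hg', hg'G⟩ := stab M (N / q) hMq G hG.isNormalizedEigenform
  refine ⟨g', hg', fun ℓ hℓ hℓN => ?_⟩
  rw [hg'G ℓ hℓ (fun h => hℓN (h.trans (Nat.div_dvd_of_dvd hqN))), hGg ℓ hℓ hℓN]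

end Fermat.Agent.S38.H53
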