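import Fermat.Agent.S38.H53.NewAtOfSq
import Fermat.Agent.S38.H113.PointNewform

/-!
# Row HARD, cell HECKE, leaf (ST): the consumer form **ST-UQ**   (helper53, squad S55/S53)

Clause (ST) of `S38.IA.HasIAModule` needs: the Steinberg element
`h_q = tr ρ(φ_q)² - (1 + q)²` KILLS the trivial-character module `M¹_Q`.

The Betti side knows `U_q² = 1` on `M¹_Q` (both traces to the level `L / q` vanish on the
localized module by (MIN) + control).  This file turns exactly this information into the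
vanishing of `h_q` at the points of the Hecke algebra:

* `stUq_rep` : `g` a normalized eigenform of level `N`, `q ∥ N`, `q ≠ lam`, `a_q(g)² = 1`;
  `ρ'` a `lam`-adic representation with the Frobenius characteristic polynomials
  `X² - j(a_ℓ(g)) X + ℓ` outside a finite set.  Then `tr ρ'(φ) = ± (q + 1)` for EVERY Frobenius
  `φ` at `q`.
* `stUq` : the same at a characteristic-zero point `x` of a Hecke–Galois datum (of ANY level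
  `N₀`, e.g. `wilesLevel` with `q²`): `x (tr ρ(φ)² - (1 + q)²) = 0`.
* `IsUqPoint`, `st_kills_of_supp` : module form.  If a `T`-module `M` is supported on points of
  this kind (`hsupp`), then `tr ρ(φ)² - (1 + q)²` kills `M`.

Inputs: frozen S35 (as the hypothesis `S58.S35Statement`), `H113.stGal` (S35 + Chebotarev),
`H53.isNewformAt_of_qCoeff_sq_eq_one` (`a_q² = 1 ⟹ new at q`, strict trivial bound).
No hypothesis "the eigensystem does not occur at level `N / q`" is needed from the consumer.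
-/

set_option autoImplicit false

open Polynomial IsLocalRing CuspForm CongruenceSubgroup ModularFormClass

namespace Fermat.Agent.S38.H53

open Fermat.Agent.S58 Fermat.Agent.S58.H94 Fermat.Agent.S38.H113

section Rep

variable {𝒪' : Type} [CommRing 𝒪'] [IsDomain 𝒪'] [IsDiscreteValuationRing 𝒪']
  [IsAdicComplete (maximalIdeal 𝒪') 𝒪'] [Finite (ResidueField 𝒪')] [CharZero 𝒪']

/-- **ST-UQ, representation form.** -/
theorem stUq_rep (hS35 : S35Statement)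
    (lam : ℕ) [Fact lam.Prime] (hlam : (lam : 𝒪') ∈ maximalIdeal 𝒪')
    {N : ℕ} [NeZero N] {g : CuspForm (Gamma0 N) 2} (hg : g.IsNormalizedEigenform)
    (Sig : Finset ℕ) (hlamS : lam ∈ Sig) (hNS : ∀ r : ℕ, r.Prime → r ∣ N → r ∈ Sig)
    (R : Subring ℂ) (j : R →+* 𝒪')
    (hR : ∀ ℓ : ℕ, ℓ.Prime → ℓ ∉ (↑Sig : Set ℕ) → qCoeff g ℓ ∈ R)
    (ρ' : GaloisRepAdic 𝒪') (B : Finset ℕ)
    (hρ' : ∀ (ℓ : ℕ) (hℓ : ℓ.Prime) (hℓS : ℓ ∉ (↑Sig : Set ℕ)), ℓ ∉ B →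
      ∀ A : ValuationSubring Qb, A.LiesOverPrime ℓ → ∀ σ : GQ, A.IsFrobeniusAt σ ℓ →
        LinearMap.charpoly (ρ'.ρ σ) =
          X ^ 2 - C (j ⟨qCoeff g ℓ, hR ℓ hℓ hℓS⟩) * X + C ((ℓ : 𝒪')))
    (q : ℕ) (hq : q.Prime) (hqlam : q ≠ lam) (hqN : q ∣ N) (hq2 : ¬ q ^ 2 ∣ N)
    (ha : qCoeff g q ^ 2 = 1)
    (P : ValuationSubring Qb) (hP : P.LiesOverPrime q) (φ : GQ) (hφ : P.IsFrobeniusAt φ q) :
    ρ'.trace φ = (q : 𝒪') + 1 ∨ ρ'.trace φ = -((q : 𝒪') + 1) := by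
  obtain ⟨M, hM, hMN, G, hG, hqM, hqM2, hGg⟩ :=
    exists_newform_of_isNewformAt hq hq2 (isNewformAt_of_qCoeff_sq_eq_one hq hqN hq2 hg ha)
  have hSN : ∀ ℓ : ℕ, ℓ.Prime → ℓ ∉ (↑Sig : Set ℕ) → ¬ ℓ ∣ N := fun ℓ hℓ hℓS hℓN =>
    hℓS (Finset.mem_coe.mpr (hNS ℓ hℓ hℓN))
  have hMS : ∀ r : ℕ, r.Prime → r ∣ M → r ∈ Sig := fun r hr hrM => hNS r hr (hrM.trans hMN)
  have hR' : ∀ ℓ : ℕ, ℓ.Prime → ¬ ℓ ∣ M → ℓ ∉ (↑Sig : Set ℕ) → qCoeff G ℓ ∈ R := by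
    intro ℓ hℓ _ hℓS
    rw [hGg ℓ hℓ (hSN ℓ hℓ hℓS)]
    exact hR ℓ hℓ hℓS
  obtain ⟨iota, hiota⟩ := exists_char_of_eigenform hG.1 hMS R j hR'
  refine stGal_rep hS35 hG lam hlam Sig hlamS hMS (chigOf hG.1 (↑Sig : Set ℕ))
    (fun ℓ hℓ hℓM hℓS => chigOf_T hG.1 (↑Sig : Set ℕ) hℓ hℓM hℓS) iota ρ' B ?_
    q hq hqlam hqM hqM2 P hP φ hφ
  intro ℓ hℓ hℓM hℓS hℓB A hA σ hσ
  have e : (⟨qCoeff g ℓ, hR ℓ hℓ hℓS⟩ : R) = ⟨qCoeff G ℓ, hR' ℓ hℓ hℓM hℓS⟩ :=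
    Subtype.ext (hGg ℓ hℓ (hSN ℓ hℓ hℓS)).symm
  rw [hρ' ℓ hℓ hℓS hℓB A hA σ hσ, hiota ℓ hℓ hℓM hℓS, e]

end Rep

section Point

variable {N₀ : ℕ} [NeZero N₀] {Sig₀ : Finset ℕ}
  {𝒪 : Type} [CommRing 𝒪] [IsDomain 𝒪] [IsDiscreteValuationRing 𝒪]
  [IsAdicComplete (maximalIdeal 𝒪) 𝒪]
  {θ : CuspForm.heckeAlgebra N₀ 2 (↑Sig₀ : Set ℕ) →+* ResidueField 𝒪}
  {T : Type} [CommRing T] [IsLocalRing T] [IsNoetherianRing T]
  [IsAdicComplete (maximalIdeal T) T] [Algebra 𝒪 T] [IsLocalHom (algebraMap 𝒪 T)]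
  [Module.Finite 𝒪 T] [Module.Free 𝒪 T]

/-- **ST-UQ.**  `H` a Hecke–Galois datum (level `N₀`, away from `Sig₀`), `x` a point of it with
values in a complete DVR `𝒪'` of characteristic `0` and residue characteristic `lam`.  Suppose
the eigensystem of `x` is that of a normalized eigenform `g` of a level `N` with `q ∥ N`
(`x (T_ℓ) = j (a_ℓ(g))` for the primes `ℓ` outside `Sig₀ ∪ Sig ∪ B`, `j` a ring homomorphism
defined on a subring of `ℂ` containing these `a_ℓ(g)`), and that `a_q(g)² = 1`.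
Then the Steinberg element `tr ρ(φ)² - (1 + q)²` vanishes at `x`, for every Frobenius `φ` at
every place over `q ≠ lam`. -/
theorem stUq (hS35 : S35Statement)
    (H : CuspForm.HeckeGaloisRepDatum N₀ (↑Sig₀ : Set ℕ) 𝒪 θ T)
    {𝒪' : Type} [CommRing 𝒪'] [IsDomain 𝒪'] [IsDiscreteValuationRing 𝒪']
    [IsAdicComplete (maximalIdeal 𝒪') 𝒪'] [Finite (ResidueField 𝒪')] [CharZero 𝒪']
    (x : T →+* 𝒪') (hx : IsLocalHom x)
    (lam : ℕ) [Fact lam.Prime] (hlam : (lam : 𝒪') ∈ maximalIdeal 𝒪')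
    {N : ℕ} [NeZero N] {g : CuspForm (Gamma0 N) 2} (hg : g.IsNormalizedEigenform)
    (Sig : Finset ℕ) (hlamS : lam ∈ Sig) (hNS : ∀ r : ℕ, r.Prime → r ∣ N → r ∈ Sig)
    (R : Subring ℂ) (j : R →+* 𝒪')
    (hR : ∀ ℓ : ℕ, ℓ.Prime → ℓ ∉ (↑Sig : Set ℕ) → qCoeff g ℓ ∈ R) (B : Finset ℕ)
    (hcompat : ∀ (ℓ : ℕ) (hℓ : ℓ.Prime) (hℓN₀ : ¬ ℓ ∣ N₀) (hℓSig₀ : ℓ ∉ (↑Sig₀ : Set ℕ))
      (hℓS : ℓ ∉ (↑Sig : Set ℕ)), ℓ ∉ B →
      x (H.π (heckeAlgebra.T hℓ hℓN₀ hℓSig₀)) = j ⟨qCoeff g ℓ, hR ℓ hℓ hℓS⟩)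
    (q : ℕ) (hq : q.Prime) (hqlam : q ≠ lam) (hqN : q ∣ N) (hq2 : ¬ q ^ 2 ∣ N)
    (ha : qCoeff g q ^ 2 = 1)
    (P : ValuationSubring Qb) (hP : P.LiesOverPrime q) (φ : GQ) (hφ : P.IsFrobeniusAt φ q) :
    x (H.ρ.trace φ ^ 2 - ((1 + q : ℕ) : T) ^ 2) = 0 := by
  have key := stUq_rep hS35 lam hlam hg Sig hlamS hNS R j hR (H.ρ.baseChangeAlong x hx)
    (B ∪ Sig₀ ∪ N₀.primeFactors) ?_ q hq hqlam hqN hq2 ha P hP φ hφ
  · rw [trace_baseChangeAlong_h113] at key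
    rw [map_sub, map_pow, map_pow, map_natCast, sub_eq_zero]
    rcases key with h | h
    · rw [h]; push_cast; ring
    · rw [h]; push_cast; ring
  · intro ℓ hℓ hℓS hℓB A hA σ hσ
    have hℓB' : ℓ ∉ B := fun h => hℓB (by
      simp only [Finset.mem_union]; exact Or.inl (Or.inl h))
    have hℓSig₀ : ℓ ∉ (↑Sig₀ : Set ℕ) := fun h => hℓB (by
      simp only [Finset.mem_union]; exact Or.inl (Or.inr (Finset.mem_coe.mp h)))
    have hℓN₀ : ¬ ℓ ∣ N₀ := fun h => hℓB (by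
      simp only [Finset.mem_union]
      exact Or.inr (Nat.mem_primeFactors.mpr ⟨hℓ, h, NeZero.ne N₀⟩))
    rw [charpoly_baseChangeAlong_h113, H.charpoly_frob ℓ hℓ hℓN₀ hℓSig₀ A hA σ hσ,
      ← hcompat ℓ hℓ hℓN₀ hℓSig₀ hℓS hℓB']
    simp only [Polynomial.map_add, Polynomial.map_sub, Polynomial.map_mul, Polynomial.map_pow,
      Polynomial.map_X, Polynomial.map_C, Polynomial.map_natCast, map_natCast]

/-- **`U_q`-points.**  A characteristic-zero point `x` of the datum `H` is a `U_q`-point (for the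
residue characteristic `lam`) if its eigensystem is that of a normalized eigenform `g` of some
level `N` with `q ∥ N` and `a_q(g)² = 1`. -/
def IsUqPoint (H : CuspForm.HeckeGaloisRepDatum N₀ (↑Sig₀ : Set ℕ) 𝒪 θ T) (lam q : ℕ)
    {𝒪' : Type} [CommRing 𝒪'] (x : T →+* 𝒪') : Prop :=
  ∃ (N : ℕ) (_ : NeZero N) (g : CuspForm (Gamma0 N) 2) (Sig : Finset ℕ) (R : Subring ℂ)
    (j : R →+* 𝒪') (hR : ∀ ℓ : ℕ, ℓ.Prime → ℓ ∉ (↑Sig : Set ℕ) → qCoeff g ℓ ∈ R)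
    (B : Finset ℕ),
    g.IsNormalizedEigenform ∧ lam ∈ Sig ∧ (∀ r : ℕ, r.Prime → r ∣ N → r ∈ Sig) ∧
    (∀ (ℓ : ℕ) (hℓ : ℓ.Prime) (hℓN₀ : ¬ ℓ ∣ N₀) (hℓSig₀ : ℓ ∉ (↑Sig₀ : Set ℕ))
      (hℓS : ℓ ∉ (↑Sig : Set ℕ)), ℓ ∉ B →
      x (H.π (heckeAlgebra.T hℓ hℓN₀ hℓSig₀)) = j ⟨qCoeff g ℓ, hR ℓ hℓ hℓS⟩) ∧
    q ∣ N ∧ ¬ q ^ 2 ∣ N ∧ qCoeff g q ^ 2 = 1

/-- The Steinberg element vanishes at every `U_q`-point. -/
theorem stUq_of_isUqPoint (hS35 : S35Statement)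
    (H : CuspForm.HeckeGaloisRepDatum N₀ (↑Sig₀ : Set ℕ) 𝒪 θ T)
    {𝒪' : Type} [CommRing 𝒪'] [IsDomain 𝒪'] [IsDiscreteValuationRing 𝒪']
    [IsAdicComplete (maximalIdeal 𝒪') 𝒪'] [Finite (ResidueField 𝒪')] [CharZero 𝒪']
    (x : T →+* 𝒪') (hx : IsLocalHom x)
    (lam : ℕ) [Fact lam.Prime] (hlam : (lam : 𝒪') ∈ maximalIdeal 𝒪')
    (q : ℕ) (hq : q.Prime) (hqlam : q ≠ lam) (hpt : IsUqPoint H lam q x)
    (P : ValuationSubring Qb) (hP : P.LiesOverPrime q) (φ : GQ) (hφ : P.IsFrobeniusAt φ q) :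
    x (H.ρ.trace φ ^ 2 - ((1 + q : ℕ) : T) ^ 2) = 0 := by
  obtain ⟨N, hN, g, Sig, R, j, hR, B, hg, hlamS, hNS, hcompat, hqN, hq2, ha⟩ := hpt
  exact stUq hS35 H x hx lam hlam hg Sig hlamS hNS R j hR B hcompat q hq hqlam hqN hq2 ha
    P hP φ hφ

/-- **(ST) on the trivial-character module.**  If the `T`-module `M` is supported on the
`U_q`-points of the datum (`hsupp`: an element of `T` vanishing at all of them kills `M`), then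
the Steinberg element `tr ρ(φ)² - (1 + q)²` kills `M`, for every Frobenius `φ` at `q`. -/
theorem st_kills_of_supp (hS35 : S35Statement)
    (H : CuspForm.HeckeGaloisRepDatum N₀ (↑Sig₀ : Set ℕ) 𝒪 θ T)
    (lam : ℕ) [Fact lam.Prime] (q : ℕ) (hq : q.Prime) (hqlam : q ≠ lam)
    {M : Type} [AddCommGroup M] [Module T M]
    (hsupp : ∀ t : T,
      (∀ (𝒪' : Type) [CommRing 𝒪'] [IsDomain 𝒪'] [IsDiscreteValuationRing 𝒪']
          [IsAdicComplete (maximalIdeal 𝒪') 𝒪'] [Finite (ResidueField 𝒪')] [CharZero 𝒪']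
          (x : T →+* 𝒪') (_ : IsLocalHom x), (lam : 𝒪') ∈ maximalIdeal 𝒪' →
          IsUqPoint H lam q x → x t = 0) →
      ∀ m : M, t • m = 0)
    (P : ValuationSubring Qb) (hP : P.LiesOverPrime q) (φ : GQ) (hφ : P.IsFrobeniusAt φ q)
    (m : M) : (H.ρ.trace φ ^ 2 - ((1 + q : ℕ) : T) ^ 2) • m = 0 :=
  hsupp _ (fun _ _ _ _ _ _ _ x hx hlam hpt =>
    stUq_of_isUqPoint hS35 H x hx lam hlam q hq hqlam hpt P hP φ hφ) m

end Point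

end Fermat.Agent.S38.H53
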